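/-
S29 / Program A, package DESC (#1867), leaf SETUP-BRANCH (helper9), part 2: transfer of bases and
norms to a constant field extension.

`K ⊆ L` fields, `FK / K` and `FL / L` fields, `i : FK →+* FL` compatible with `K → L`, `x : FK`.
* `jHom`                 : the induced map `K(x) → L(i x)`;
* `exists_basis_transfer`: if `FL` is generated by `L` and `i(FK)` and
  `[FK : K(x)] ≤ [FL : L(i x)]`, then `i ∘ b` is an `L(i x)`-basis of `FL` for every
  `K(x)`-basis `b` of `FK`;
* `leftMulMatrix_transfer`: the matrix of multiplication by `i f` is the image of that of `f`;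
* `norm_sub_const`       : `N_{FL/L(i x)}(i y - η) = (-1)^n (minpoly y).map j (η)` for a power
  basis generator `y`.
(Mathlib only.)
-/
import Mathlib

set_option autoImplicit false

open Polynomial IntermediateField

namespace Fermat.Agent.S29.H9

noncomputable section

variable {K L FK FL : Type*} [Field K] [Field L] [Algebra K L] [Field FK] [Algebra K FK]
  [Field FL] [Algebra L FL] (i : FK →+* FL)
  (hi : ∀ a : K, i (algebraMap K FK a) = algebraMap L FL (algebraMap K L a)) (x : FK)

include hi in
theorem map_mem_adjoin {r : FK} (hr : r ∈ K⟮x⟯) : i r ∈ L⟮i x⟯ := by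
  induction hr using IntermediateField.adjoin_induction with
  | mem z hz =>
    rw [Set.mem_singleton_iff] at hz
    subst hz
    exact IntermediateField.mem_adjoin_simple_self L (i z)
  | algebraMap a =>
    rw [hi]
    exact (L⟮i x⟯).algebraMap_mem _
  | add a b _ _ ha hb =>
    rw [map_add]
    exact add_mem ha hb
  | inv a _ ha =>
    rw [map_inv₀]
    exact inv_mem ha
  | mul a b _ _ ha hb =>
    rw [map_mul]
    exact mul_mem ha hb

/-- The map `K(x) → L(i x)` induced by `i`. -/
def jHom : K⟮x⟯ →+* L⟮i x⟯ :=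
  (i.comp (algebraMap K⟮x⟯ FK)).codRestrict L⟮i x⟯ (fun r => map_mem_adjoin i hi x r.2)

@[simp] theorem coe_jHom (r : K⟮x⟯) : ((jHom i hi x r : L⟮i x⟯) : FL) = i (r : FK) := rfl

theorem jHom_algebraMap (a : K) :
    jHom i hi x (algebraMap K K⟮x⟯ a) = algebraMap L L⟮i x⟯ (algebraMap K L a) := by
  apply Subtype.ext
  rw [coe_jHom]
  exact hi a

/-- `i f` in terms of the coordinates of `f`. -/
theorem map_eq_sum_smul {ι : Type*} [Fintype ι] (b : Module.Basis ι K⟮x⟯ FK) (f : FK) :
    i f = ∑ k, jHom i hi x (b.repr f k) • i (b k) := by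
  conv_lhs => rw [← b.sum_repr f]
  rw [map_sum]
  refine Finset.sum_congr rfl fun k _ => ?_
  rw [Algebra.smul_def, Algebra.smul_def, map_mul]
  rfl

include hi in
theorem exists_basis_transfer [FiniteDimensional L⟮i x⟯ FL] {ι : Type*} [Fintype ι]
    (b : Module.Basis ι K⟮x⟯ FK)
    (hgen : IntermediateField.adjoin L (Set.range i) = ⊤)
    (hdeg : Module.finrank K⟮x⟯ FK ≤ Module.finrank L⟮i x⟯ FL) :
    ∃ b' : Module.Basis ι L⟮i x⟯ FL, ∀ k, b' k = i (b k) := by
  classical
  set V : Submodule L⟮i x⟯ FL := Submodule.span L⟮i x⟯ (Set.range fun k => i (b k)) with hV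
  have hA : ∀ f : FK, i f ∈ V := by
    intro f
    rw [map_eq_sum_smul i hi x b f]
    exact Submodule.sum_mem _ fun k _ =>
      Submodule.smul_mem _ _ (Submodule.subset_span ⟨k, rfl⟩)
  have hmul : ∀ v ∈ V, ∀ w ∈ V, v * w ∈ V := by
    intro v hv w hw
    induction hv using Submodule.span_induction with
    | mem v hv =>
      obtain ⟨k, rfl⟩ := hv
      induction hw using Submodule.span_induction with
      | mem w hw =>
        obtain ⟨l, rfl⟩ := hw
        simp only
        rw [← map_mul]
        exact hA _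
      | zero => simp
      | add w₁ w₂ _ _ h₁ h₂ =>
        rw [mul_add]
        exact add_mem h₁ h₂
      | smul r w _ h =>
        rw [mul_smul_comm]
        exact Submodule.smul_mem _ _ h
    | zero => simp
    | add v₁ v₂ _ _ h₁ h₂ =>
      rw [add_mul]
      exact add_mem h₁ h₂
    | smul r v _ h =>
      rw [smul_mul_assoc]
      exact Submodule.smul_mem _ _ h
  have h1 : (1 : FL) ∈ V := by
    have := hA 1
    rwa [map_one] at this
  have hinv : ∀ v ∈ V, v⁻¹ ∈ V := by
    intro v hv
    by_cases hv0 : v = 0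
    · subst hv0
      simp
    · let μ : V →ₗ[L⟮i x⟯] V :=
        { toFun := fun w => ⟨v * w, hmul v hv w w.2⟩
          map_add' := fun w₁ w₂ => Subtype.ext (by simp [mul_add])
          map_smul' := fun r w => Subtype.ext (by simp) }
      have hinj : Function.Injective μ := by
        intro w₁ w₂ h
        have h' : v * (w₁ : FL) = v * (w₂ : FL) := congrArg Subtype.val h
        exact Subtype.ext (mul_left_cancel₀ hv0 h')
      obtain ⟨w, hw⟩ := LinearMap.surjective_of_injective hinj ⟨1, h1⟩
      have hw' : v * (w : FL) = 1 := congrArg Subtype.val hw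
      have : v⁻¹ = (w : FL) := inv_eq_of_mul_eq_one_right hw'
      rw [this]
      exact w.2
  have htop : V = ⊤ := by
    rw [eq_top_iff]
    intro z _
    have hz : z ∈ IntermediateField.adjoin L (Set.range i) := by
      rw [hgen]
      trivial
    induction hz using IntermediateField.adjoin_induction with
    | mem z hz =>
      obtain ⟨f, rfl⟩ := hz
      exact hA f
    | algebraMap a =>
      have : algebraMap L FL a = (algebraMap L L⟮i x⟯ a) • (1 : FL) := by
        rw [Algebra.smul_def, mul_one]
        rfl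
      rw [this]
      exact Submodule.smul_mem _ _ h1
    | add a b _ _ ha hb => exact add_mem (ha trivial) (hb trivial)
    | inv a _ ha => exact hinv a (ha trivial)
    | mul a b _ _ ha hb => exact hmul a (ha trivial) b (hb trivial)
  have hcard : Fintype.card ι = Module.finrank K⟮x⟯ FK := (Module.finrank_eq_card_basis b).symm
  have hle : Module.finrank L⟮i x⟯ FL ≤ Fintype.card ι := by
    have h := finrank_range_le_card (R := L⟮i x⟯) (fun k => i (b k))
    rw [Set.finrank, ← hV, htop, finrank_top] at h
    exact h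
  have hspan : ⊤ ≤ Submodule.span L⟮i x⟯ (Set.range fun k => i (b k)) := by
    rw [← hV, htop]
  refine ⟨basisOfTopLeSpanOfCardEqFinrank (fun k => i (b k)) hspan (by omega), fun k => ?_⟩
  rw [coe_basisOfTopLeSpanOfCardEqFinrank]

theorem repr_transfer {ι : Type*} [Fintype ι] (b : Module.Basis ι K⟮x⟯ FK)
    (b' : Module.Basis ι L⟮i x⟯ FL) (hb : ∀ k, b' k = i (b k)) (f : FK) (k : ι) :
    b'.repr (i f) k = jHom i hi x (b.repr f k) := by
  have h : i f = ∑ k, jHom i hi x (b.repr f k) • b' k := by
    rw [map_eq_sum_smul i hi x b f]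
    exact Finset.sum_congr rfl fun k _ => by rw [hb]
  rw [h, Module.Basis.repr_sum_self]

theorem leftMulMatrix_transfer {ι : Type*} [Fintype ι] [DecidableEq ι]
    (b : Module.Basis ι K⟮x⟯ FK) (b' : Module.Basis ι L⟮i x⟯ FL) (hb : ∀ k, b' k = i (b k))
    (f : FK) :
    Algebra.leftMulMatrix b' (i f) = (Algebra.leftMulMatrix b f).map (jHom i hi x) := by
  ext k l
  rw [Algebra.leftMulMatrix_eq_repr_mul, Matrix.map_apply, Algebra.leftMulMatrix_eq_repr_mul, hb,
    ← map_mul, repr_transfer i hi x b b' hb]

/-- The norm of `i y - η` for a power basis generator `y` of `FK / K(x)`. -/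
theorem norm_sub_const (pb : PowerBasis K⟮x⟯ FK) (b' : Module.Basis (Fin pb.dim) L⟮i x⟯ FL)
    (hb : ∀ k, b' k = i (pb.basis k)) (η : L) :
    Algebra.norm L⟮i x⟯ (i pb.gen - algebraMap L FL η) =
      (-1) ^ pb.dim * ((minpoly K⟮x⟯ pb.gen).map (jHom i hi x)).eval (algebraMap L L⟮i x⟯ η) := by
  classical
  have hη : algebraMap L FL η = algebraMap L⟮i x⟯ FL (algebraMap L L⟮i x⟯ η) := rfl
  rw [Algebra.norm_eq_matrix_det b', map_sub, leftMulMatrix_transfer i hi x pb.basis b' hb, hη,
    AlgHom.commutes, ← charpoly_leftMulMatrix pb, ← Matrix.charpoly_map, Matrix.eval_charpoly]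
  have : (Algebra.leftMulMatrix pb.basis pb.gen).map (jHom i hi x) -
      algebraMap L⟮i x⟯ (Matrix (Fin pb.dim) (Fin pb.dim) L⟮i x⟯) (algebraMap L L⟮i x⟯ η)
      = -(Matrix.scalar (Fin pb.dim) (algebraMap L L⟮i x⟯ η) -
        (Algebra.leftMulMatrix pb.basis pb.gen).map (jHom i hi x)) := by
    rw [neg_sub]
    rfl
  rw [this, Matrix.det_neg, Fintype.card_fin]

end

end Fermat.Agent.S29.H9
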