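/-
S29 / Program A, package DESC (#1867), leaf SETUP-BRANCH (helper9), part 3: the fields `branch`
and `branch_inv` of `H74.Setup` for a CONSTANT family.

`K ⊆ L` algebraically closed of characteristic zero, `FK / K` a function field, `FL / L` its
constant field extension (`i : FK →+* FL` compatible with `K → L`, `FL` generated by `L` and
`i(FK)`, degrees over `K(x)` resp. `L(i x)` compatible).  Then there is a FINITE SET `S ⊆ K` such
that every place of `FL / L` over a point `c ∈ L` outside (the image of) `S` is unramified over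
the `i x`-line (`branch_const`).

Proof: `y` a primitive element of `FK / K(x)`, `m` its minimal polynomial; clear denominators
`a * m = Φ ∈ K[X][Y]` and in a Bezout identity `u m + v m' = 1`: `U Φ + V Φ_Y = a b_u b_v =: r`.
For `r(c) ≠ 0` the specialised polynomial `Φ(c, Y) ∈ L[Y]` is separable of degree
`n = [FL : L(i x)]`, so it has `n` distinct roots `η`; the norm of `i y - η` is
`± Φ(i x, η) / a(i x)` (`norm_sub_const`), which vanishes at `c`; conclude by the fibre count
`ord_eq_one_of_norm_roots`.
-/
import Fermat.Agent.S29.H9.FibreCount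
import Fermat.Agent.S29.H9.ConstBasis

set_option autoImplicit false

open AlgebraicCurve Polynomial IntermediateField

namespace Fermat.Agent.S29.H9

noncomputable section

section Phi

variable {K F : Type*} [Field K] [Field F] [Algebra K F] (x : F)

/-- `K[X] → K(x)`, `p ↦ p(x)`. -/
def phi : K[X] →+* K⟮x⟯ := (aeval (AdjoinSimple.gen K x) : K[X] →ₐ[K] K⟮x⟯).toRingHom

@[simp] theorem coe_phi (p : K[X]) : ((phi x p : K⟮x⟯) : F) = aeval x p :=
  AdjoinSimple.coe_aeval_gen_apply (F := K) (α := x) p

theorem phi_C (a : K) : phi x (C a) = algebraMap K K⟮x⟯ a := by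
  apply Subtype.ext
  rw [coe_phi, aeval_C]
  rfl

variable {x}

theorem phi_injective (hx : Transcendental K x) : Function.Injective (phi (K := K) x) := by
  rw [injective_iff_map_eq_zero]
  intro p hp
  have h : aeval x p = 0 := by
    rw [← coe_phi, hp]
    rfl
  exact (transcendental_iff.mp hx) p h

/-- Clearing denominators of a polynomial over `K(x)`. -/
theorem exists_clear_denoms (g : (K⟮x⟯)[X]) :
    ∃ (a : K[X]) (G : K[X][X]), phi x a ≠ 0 ∧ G.map (phi x) = C (phi x a) * g := by
  induction g using Polynomial.induction_on' with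
  | add g₁ g₂ h₁ h₂ =>
    obtain ⟨a₁, G₁, ha₁, hG₁⟩ := h₁
    obtain ⟨a₂, G₂, ha₂, hG₂⟩ := h₂
    refine ⟨a₁ * a₂, C a₂ * G₁ + C a₁ * G₂, ?_, ?_⟩
    · rw [map_mul]
      exact mul_ne_zero ha₁ ha₂
    · rw [Polynomial.map_add, Polynomial.map_mul, Polynomial.map_mul, Polynomial.map_C,
        Polynomial.map_C, hG₁, hG₂, map_mul, map_mul]
      ring
  | monomial n r =>
    obtain ⟨p, q, hpq⟩ := (IntermediateField.mem_adjoin_simple_iff K (r : F)).mp r.2
    by_cases hq : aeval x q = 0
    · have hr : r = 0 := by
        apply Subtype.ext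
        rw [hpq, hq, div_zero]
        rfl
      refine ⟨1, 0, ?_, ?_⟩
      · rw [map_one]
        exact one_ne_zero
      · rw [hr]
        simp
    · refine ⟨q, monomial n p, ?_, ?_⟩
      · intro h
        apply hq
        rw [← coe_phi, h]
        rfl
      · rw [Polynomial.map_monomial, C_mul_monomial]
        congr 1
        apply Subtype.ext
        rw [MulMemClass.coe_mul, coe_phi, coe_phi, hpq, mul_div_cancel₀ _ hq]

end Phi

section Main

variable {K L FK FL : Type*} [Field K] [Field L] [Algebra K L] [Field FK] [Algebra K FK]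
  [Field FL] [Algebra L FL] (i : FK →+* FL)
  (hi : ∀ a : K, i (algebraMap K FK a) = algebraMap L FL (algebraMap K L a)) (x : FK)

include hi in
theorem map_aeval (p : K[X]) : i (aeval x p) = aeval (i x) (p.map (algebraMap K L)) := by
  rw [aeval_def, aeval_def, Polynomial.hom_eval₂, Polynomial.eval₂_map]
  congr 1
  ext a
  exact hi a

/-- `j ∘ φ = φ' ∘ (base change)`. -/
theorem jHom_comp_phi :
    (jHom i hi x).comp (phi x) = (phi (K := L) (i x)).comp (mapRingHom (algebraMap K L)) := by
  refine RingHom.ext fun p => ?_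
  apply Subtype.ext
  rw [RingHom.comp_apply, RingHom.comp_apply, coe_jHom, coe_phi, coe_mapRingHom, coe_phi]
  exact map_aeval i hi x p

/-- If the degree is one, every place over `c` is unramified. -/
theorem ord_eq_one_of_finrank_eq_one {K F : Type*} [Field K] [Field F] [Algebra K F] (x : F)
    [CharZero K] [FiniteDimensional K⟮x⟯ F] [IsAlgClosed K] (hx : Transcendental K x)
    (h1 : Module.finrank K⟮x⟯ F = 1) (c : K) (P : Place K F)
    (hP : 0 < P.ord (x - algebraMap K F c)) : P.ord (x - algebraMap K F c) = 1 := by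
  classical
  have hsum := Fermat.Agent.S18.H42.sum_ord_over_toFinset x hx c
  rw [h1] at hsum
  have hPT : P ∈ (Fermat.Agent.S18.H42.finite_over x hx c).toFinset := by
    simpa using hP
  have hle : P.ord (x - algebraMap K F c)
      ≤ ∑ Q ∈ (Fermat.Agent.S18.H42.finite_over x hx c).toFinset,
        Q.ord (x - algebraMap K F c) :=
    Finset.single_le_sum (f := fun Q : Place K F => Q.ord (x - algebraMap K F c))
      (fun Q hQ => by
        have : 0 < Q.ord (x - algebraMap K F c) := by simpa using hQ
        exact this.le) hPT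
  rw [hsum] at hle
  push_cast at hle
  omega

include hi in
/-- **Branch locus of a constant family.**  There is a finite set `S ⊆ K` such that all places
of `FL / L` over a point `c ∈ L` outside `S` are unramified over the `i x`-line. -/
theorem branch_const [IsAlgClosed K] [IsAlgClosed L] [CharZero K]
    (hx : Transcendental K x) [FiniteDimensional K⟮x⟯ FK]
    (hxL : Transcendental L (i x)) [FiniteDimensional L⟮i x⟯ FL]
    (hgen : IntermediateField.adjoin L (Set.range i) = ⊤)
    (hdeg : Module.finrank K⟮x⟯ FK ≤ Module.finrank L⟮i x⟯ FL) :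
    ∃ S : Finset K, ∀ (P : Place L FL) (c : L), (∀ s ∈ S, c ≠ algebraMap K L s) →
      0 < P.ord (i x - algebraMap L FL c) → P.ord (i x - algebraMap L FL c) = 1 := by
  classical
  haveI : CharZero L := charZero_of_injective_algebraMap (algebraMap K L).injective
  haveI : CharZero K⟮x⟯ := charZero_of_injective_algebraMap (algebraMap K K⟮x⟯).injective
  haveI : Algebra.IsSeparable K⟮x⟯ FK := Algebra.IsAlgebraic.isSeparable_of_perfectField
  let pb : PowerBasis K⟮x⟯ FK := Field.powerBasisOfFiniteOfSeparable K⟮x⟯ FK
  set n : ℕ := pb.dim with hn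
  set y : FK := pb.gen with hy
  set m : (K⟮x⟯)[X] := minpoly K⟮x⟯ y with hm
  have hmonic : m.Monic := minpoly.monic (Algebra.IsIntegral.isIntegral y)
  have hmdeg : m.natDegree = n := pb.natDegree_minpoly
  have hmsep : m.Separable := Algebra.IsSeparable.isSeparable K⟮x⟯ y
  obtain ⟨b', hb'⟩ := exists_basis_transfer i hi x pb.basis hgen hdeg
  have hfinL : Module.finrank L⟮i x⟯ FL = n := by
    rw [Module.finrank_eq_card_basis b', Fintype.card_fin]
  have hφ := phi_injective hx
  -- clear denominators
  obtain ⟨a, Φ, ha, hΦ⟩ := exists_clear_denoms (x := x) m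
  obtain ⟨u, v, huv⟩ := (separable_def' m).mp hmsep
  obtain ⟨bu, U, hbu, hU⟩ := exists_clear_denoms (x := x) u
  obtain ⟨bv, V, hbv, hV⟩ := exists_clear_denoms (x := x) v
  set r : K[X] := a * bu * bv with hr
  have hr0 : r ≠ 0 := by
    intro h
    have h1 : phi x r = 0 := by rw [h, map_zero]
    rw [hr, map_mul, map_mul] at h1
    exact mul_ne_zero (mul_ne_zero ha hbu) hbv h1
  have hkey : C bv * U * Φ + C bu * V * derivative Φ = C r := by
    apply Polynomial.map_injective (phi x) hφ
    simp only [Polynomial.map_add, Polynomial.map_mul, Polynomial.map_C,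
      ← Polynomial.derivative_map]
    rw [hΦ, hU, hV, derivative_C_mul, hr]
    simp only [map_mul, C_mul]
    linear_combination (C (phi x a) * C (phi x bu) * C (phi x bv)) * huv
  have hΦdeg : Φ.natDegree = n := by
    rw [← Polynomial.natDegree_map_eq_of_injective hφ Φ, hΦ, natDegree_C_mul ha, hmdeg]
  have hΦcoeff : Φ.coeff n = a := by
    apply hφ
    rw [← Polynomial.coeff_map, hΦ, coeff_C_mul, ← hmdeg, coeff_natDegree, hmonic.leadingCoeff,
      mul_one]
  refine ⟨r.roots.toFinset, fun P c hc hP => ?_⟩
  -- the specialisation at `c`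
  set evc : K[X] →+* L := Polynomial.eval₂RingHom (algebraMap K L) c with hevc
  have hevc_apply : ∀ p : K[X], evc p = (p.map (algebraMap K L)).eval c := fun p => by
    rw [hevc, coe_eval₂RingHom, Polynomial.eval_map]
  have hrc : evc r ≠ 0 := by
    intro h0
    rw [hevc_apply] at h0
    have hrmap : r.map (algebraMap K L) ≠ 0 :=
      (Polynomial.map_ne_zero_iff (algebraMap K L).injective).mpr hr0
    have hmem : c ∈ (r.map (algebraMap K L)).roots := (Polynomial.mem_roots hrmap).mpr h0
    rw [(IsAlgClosed.splits r).roots_map_of_injective (algebraMap K L).injective,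
      Multiset.mem_map] at hmem
    obtain ⟨s, hs, hsc⟩ := hmem
    exact hc s (Multiset.mem_toFinset.mpr hs) hsc.symm
  have hac : evc a ≠ 0 := by
    intro h0
    apply hrc
    rw [hr, map_mul, map_mul, h0, zero_mul, zero_mul]
  set Φc : L[X] := Φ.map evc with hΦc
  have hΦcdeg : Φc.natDegree = n := by
    apply natDegree_eq_of_le_of_coeff_ne_zero
    · exact (Polynomial.natDegree_map_le).trans hΦdeg.le
    · rw [hΦc, Polynomial.coeff_map, hΦcoeff]
      exact hac
  have hΦcsep : Φc.Separable := by
    rw [separable_def']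
    have h := congrArg (Polynomial.map evc) hkey
    simp only [Polynomial.map_add, Polynomial.map_mul, Polynomial.map_C,
      ← Polynomial.derivative_map] at h
    rw [← hΦc] at h
    refine ⟨C (evc r)⁻¹ * (C bv * U).map evc, C (evc r)⁻¹ * (C bu * V).map evc, ?_⟩
    have h' : (C bv * U).map evc * Φc + (C bu * V).map evc * derivative Φc = C (evc r) := by
      simp only [Polynomial.map_mul, Polynomial.map_C]
      exact h
    calc C (evc r)⁻¹ * (C bv * U).map evc * Φc + C (evc r)⁻¹ * (C bu * V).map evc * derivative Φc
        = C (evc r)⁻¹ * ((C bv * U).map evc * Φc + (C bu * V).map evc * derivative Φc) := by ring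
      _ = C (evc r)⁻¹ * C (evc r) := by rw [h']
      _ = 1 := by rw [← C_mul, inv_mul_cancel₀ hrc, C_1]
  -- the roots
  set s : Finset L := Φc.roots.toFinset with hs
  have hscard : s.card = Module.finrank L⟮i x⟯ FL := by
    rw [hfinL, hs, Multiset.toFinset_card_of_nodup (nodup_roots hΦcsep),
      Polynomial.splits_iff_card_roots.mp (IsAlgClosed.splits Φc), hΦcdeg]
  have hΦc0 : Φc ≠ 0 := by
    intro h0
    rw [h0] at hΦcsep
    exact Polynomial.not_separable_zero hΦcsep
  rcases Nat.lt_or_ge n 2 with hn2 | hn2
  · -- degree one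
    have hn1 : n = 1 := by
      have : 0 < n := pb.dim_pos
      omega
    exact ord_eq_one_of_finrank_eq_one (i x) hxL (hfinL.trans hn1) c P hP
  · -- degree at least two: count the fibre
    obtain ⟨Ψ, hΨ⟩ : ∃ Ψ : L[X][X], Ψ = Φ.map (mapRingHom (algebraMap K L)) := ⟨_, rfl⟩
    have hΨc : Ψ.map (evalRingHom c) = Φc := by
      rw [hΨ, Polynomial.map_map, hΦc]
      congr 1
      refine RingHom.ext fun p => ?_
      rw [RingHom.comp_apply, coe_mapRingHom, coe_evalRingHom, hevc_apply]
    refine ord_eq_one_of_norm_roots (i x) hxL c (i y) (a.map (algebraMap K L))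
      (by rw [← hevc_apply]; exact hac) s hscard
      (fun η => C ((-1 : L) ^ n) * Ψ.eval (C η)) (fun η hη => ⟨?_, ?_, ?_⟩) P hP
    · -- `i y ≠ η`
      intro h0
      have h1 : i y = algebraMap L FL η := sub_eq_zero.mp h0
      have hb0 : b' ⟨0, by omega⟩ = 1 := by
        rw [hb', pb.basis_eq_pow, pow_zero, map_one]
      have hb1 : b' ⟨1, by omega⟩ = i y := by
        rw [hb', pb.basis_eq_pow, pow_one]
      have h2 : b' ⟨1, by omega⟩ = (algebraMap L L⟮i x⟯ η) • b' ⟨0, by omega⟩ := by
        rw [hb1, hb0, h1, Algebra.smul_def, mul_one]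
        rfl
      have h3 := congrArg (fun w => b'.repr w ⟨1, by omega⟩) h2
      simp only [map_smul, Module.Basis.repr_self, Finsupp.smul_apply, Finsupp.single_apply] at h3
      simp at h3
    · -- `p_η (c) = 0`
      have hroot : Φc.eval η = 0 := by
        have : η ∈ Φc.roots := Multiset.mem_toFinset.mp hη
        exact (Polynomial.mem_roots hΦc0).mp this
      rw [eval_mul, eval_C]
      have h1 : (Ψ.eval (C η)).eval c = (Ψ.map (evalRingHom c)).eval η := by
        have e := Polynomial.eval₂_at_apply (p := Ψ) (evalRingHom c) (C η)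
        rw [coe_evalRingHom, eval_C] at e
        rw [← e]
        exact (Polynomial.eval_map (evalRingHom c) η).symm
      rw [h1, hΨc, hroot, mul_zero]
    · -- the norm identity
      have hN := norm_sub_const i hi x pb b' hb' η
      have h1 : Algebra.norm L⟮i x⟯ (i y - algebraMap L FL η) *
          phi (K := L) (i x) (a.map (algebraMap K L))
          = phi (K := L) (i x) (C ((-1 : L) ^ n) * Ψ.eval (C η)) := by
        have hη' : algebraMap L L⟮i x⟯ η = phi (K := L) (i x) (C η) := (phi_C (i x) η).symm
        have e1 : phi (K := L) (i x) (a.map (algebraMap K L)) = jHom i hi x (phi x a) := by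
          have := congrArg (fun f => f a) (jHom_comp_phi i hi x)
          simp only [RingHom.comp_apply, coe_mapRingHom] at this
          exact this.symm
        have e2 : ((minpoly K⟮x⟯ pb.gen).map (jHom i hi x)).eval (algebraMap L L⟮i x⟯ η)
            * jHom i hi x (phi x a) = phi (K := L) (i x) (Ψ.eval (C η)) := by
          have e3 : (Φ.map (phi x)).map (jHom i hi x) = Ψ.map (phi (K := L) (i x)) := by
            rw [hΨ, Polynomial.map_map, Polynomial.map_map, jHom_comp_phi]
          rw [hΦ, Polynomial.map_mul, Polynomial.map_C] at e3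
          have e4 := congrArg (Polynomial.eval (algebraMap L L⟮i x⟯ η)) e3
          have eR : eval (algebraMap L L⟮i x⟯ η) (Ψ.map (phi (K := L) (i x)))
              = phi (K := L) (i x) (Ψ.eval (C η)) := by
            rw [Polynomial.eval_map, hη', Polynomial.eval₂_at_apply]
          rw [eval_mul, eval_C, eR] at e4
          rw [← e4]
          ring
        rw [hN, e1, map_mul, phi_C, map_pow, map_neg, map_one, mul_assoc, e2]
      have h2 := congrArg (fun w : L⟮i x⟯ => (w : FL)) h1
      simp only [MulMemClass.coe_mul, coe_phi] at h2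
      exact h2

end Main

end

end Fermat.Agent.S29.H9
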