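/-
S29 / Program A, package DESC (#1867), leaf SETUP-BRANCH (helper9), part 4: the fields `branch`
and `branch_inv` of `H74.Setup L A FL O (i x)` for a constant family, VERBATIM shape.

`branch_field_const`  : the field `branch` for the base function `i x`;
`branch_fields_const` : both fields (`branch` for `i x` and for `(i x)⁻¹`), with hypotheses on
                        `x` only.
-/
import Fermat.Agent.S29.H9.BranchConst

set_option autoImplicit false

open AlgebraicCurve Polynomial IntermediateField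

namespace Fermat.Agent.S29.H9

noncomputable section

variable {K L FK FL : Type*} [Field K] [Field L] [Algebra K L] [Field FK] [Algebra K FK]
  [Field FL] [Algebra L FL] (i : FK →+* FL)
  (hi : ∀ a : K, i (algebraMap K FK a) = algebraMap L FL (algebraMap K L a)) (x : FK)

include hi in
/-- The field `branch` of `H74.Setup L A FL O (i x)` for a constant family. -/
theorem branch_field_const [IsAlgClosed K] [IsAlgClosed L] [CharZero K] (A : ValuationSubring L)
    (hKA : ∀ a : K, algebraMap K L a ∈ A)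
    (hx : Transcendental K x) [FiniteDimensional K⟮x⟯ FK]
    (hxL : Transcendental L (i x)) [FiniteDimensional L⟮i x⟯ FL]
    (hgen : IntermediateField.adjoin L (Set.range i) = ⊤)
    (hdeg : Module.finrank K⟮x⟯ FK ≤ Module.finrank L⟮i x⟯ FL) :
    ∃ S : Finset L, (∀ c ∈ S, c ∈ A) ∧ (∀ c ∈ S, ∀ c' ∈ S, c ≠ c' → (c - c')⁻¹ ∈ A) ∧
      ∀ (P : Place L FL) (c : L), c ∉ S →
        0 < P.ord (i x - algebraMap L FL c) → P.ord (i x - algebraMap L FL c) = 1 := by
  classical
  obtain ⟨S, hS⟩ := branch_const i hi x hx hxL hgen hdeg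
  refine ⟨S.image (algebraMap K L), ?_, ?_, ?_⟩
  · intro c hc
    obtain ⟨s, -, rfl⟩ := Finset.mem_image.mp hc
    exact hKA s
  · intro c hc c' hc' hne
    obtain ⟨s, -, rfl⟩ := Finset.mem_image.mp hc
    obtain ⟨s', -, rfl⟩ := Finset.mem_image.mp hc'
    rw [← map_sub, ← map_inv₀]
    exact hKA _
  · intro P c hc hP
    exact hS P c (fun s hs h => hc (h ▸ Finset.mem_image_of_mem _ hs)) hP

theorem adjoin_simple_inv_eq {k E : Type*} [Field k] [Field E] [Algebra k E] (z : E) :
    k⟮z⁻¹⟯ = k⟮z⟯ := by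
  apply le_antisymm
  · rw [IntermediateField.adjoin_simple_le_iff]
    exact inv_mem (IntermediateField.mem_adjoin_simple_self k z)
  · rw [IntermediateField.adjoin_simple_le_iff]
    have := inv_mem (IntermediateField.mem_adjoin_simple_self k z⁻¹)
    rwa [inv_inv] at this

theorem finiteDimensional_of_eq {k E : Type*} [Field k] [Field E] [Algebra k E]
    {M M' : IntermediateField k E} (h : M = M') [FiniteDimensional M E] :
    FiniteDimensional M' E := by
  subst h
  infer_instance

theorem finrank_of_eq {k E : Type*} [Field k] [Field E] [Algebra k E]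
    {M M' : IntermediateField k E} (h : M = M') : Module.finrank M E = Module.finrank M' E := by
  subst h
  rfl

theorem transcendental_inv {k E : Type*} [Field k] [Field E] [Algebra k E] {z : E}
    (hz : Transcendental k z) : Transcendental k z⁻¹ := by
  intro h
  apply hz
  have := h.inv
  rwa [inv_inv] at this

include hi in
/-- Both branch fields of `H74.Setup L A FL O (i x)` for a constant family. -/
theorem branch_fields_const [IsAlgClosed K] [IsAlgClosed L] [CharZero K] (A : ValuationSubring L)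
    (hKA : ∀ a : K, algebraMap K L a ∈ A)
    (hx : Transcendental K x) [FiniteDimensional K⟮x⟯ FK]
    (hxL : Transcendental L (i x)) [FiniteDimensional L⟮i x⟯ FL]
    (hgen : IntermediateField.adjoin L (Set.range i) = ⊤)
    (hdeg : Module.finrank K⟮x⟯ FK ≤ Module.finrank L⟮i x⟯ FL) :
    (∃ S : Finset L, (∀ c ∈ S, c ∈ A) ∧ (∀ c ∈ S, ∀ c' ∈ S, c ≠ c' → (c - c')⁻¹ ∈ A) ∧
      ∀ (P : Place L FL) (c : L), c ∉ S →
        0 < P.ord (i x - algebraMap L FL c) → P.ord (i x - algebraMap L FL c) = 1) ∧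
    (∃ S : Finset L, (∀ c ∈ S, c ∈ A) ∧ (∀ c ∈ S, ∀ c' ∈ S, c ≠ c' → (c - c')⁻¹ ∈ A) ∧
      ∀ (P : Place L FL) (c : L), c ∉ S →
        0 < P.ord ((i x)⁻¹ - algebraMap L FL c) → P.ord ((i x)⁻¹ - algebraMap L FL c) = 1) := by
  refine ⟨branch_field_const i hi x A hKA hx hxL hgen hdeg, ?_⟩
  have hxinv : Transcendental K x⁻¹ := transcendental_inv hx
  have hmap : i x⁻¹ = (i x)⁻¹ := map_inv₀ i x
  have hxLinv : Transcendental L (i x⁻¹) := by
    rw [hmap]
    exact transcendental_inv hxL
  have e1 : K⟮x⁻¹⟯ = K⟮x⟯ := adjoin_simple_inv_eq x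
  have e2 : L⟮i x⁻¹⟯ = L⟮i x⟯ := by
    rw [hmap]
    exact adjoin_simple_inv_eq (i x)
  haveI : FiniteDimensional K⟮x⁻¹⟯ FK := finiteDimensional_of_eq e1.symm
  haveI : FiniteDimensional L⟮i x⁻¹⟯ FL := finiteDimensional_of_eq e2.symm
  have hdeg' : Module.finrank K⟮x⁻¹⟯ FK ≤ Module.finrank L⟮i x⁻¹⟯ FL := by
    rw [finrank_of_eq e1, finrank_of_eq e2]
    exact hdeg
  have h := branch_field_const i hi x⁻¹ A hKA hxinv hxLinv hgen hdeg'
  rw [hmap] at h
  exact h

end

end Fermat.Agent.S29.H9
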