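/-
S29 / Program A, package DESC (#1867), leaf SETUP-BRANCH (helper9), part 1: a generic criterion
for all places over `c` to be unramified, by COUNTING the fibre.

`ord_eq_one_of_norm_roots`: `F / K(x)` finite of degree `n`, `K` algebraically closed of
characteristic zero.  If there are `n` distinct constants `η` such that the norm of `y - η` is
`p_η(x) / q(x)` with `p_η(c) = 0 ≠ q(c)`, then every place over `c` is unramified:
each `η` yields a place over `c` at which `y - η` vanishes (norm-order formula, landed
`H53.norm_order_toFinset`), distinct `η` yield distinct places, and the ramification indices add up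
to `n` (landed `H42.sum_ord_over_toFinset`).
-/
import Mathlib
import Fermat.Agent.S18.H42.Fibres
import Fermat.Agent.S18.H53.NormOrder

set_option autoImplicit false

open AlgebraicCurve Polynomial IntermediateField

namespace Fermat.Agent.S29.H9

noncomputable section

variable {K F : Type*} [Field K] [Field F] [Algebra K F]

/-- If two constants are both "values" of `y` at the place `P`, they are equal. -/
theorem eq_of_ord_sub_pos (P : Place K F) {y : F} {η η' : K}
    (h : 0 < P.ord (y - algebraMap K F η)) (h' : 0 < P.ord (y - algebraMap K F η')) : η = η' := by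
  by_contra hne
  have hd : η' - η ≠ 0 := sub_ne_zero.mpr (Ne.symm hne)
  have h0 : P.ord (algebraMap K F (η' - η)) = 0 := Fermat.Agent.S24.ord_algebraMap P hd
  have hf : y - algebraMap K F η ≠ 0 := by
    intro h1
    rw [h1, Place.ord_zero] at h
    exact lt_irrefl _ h
  have hg : -(y - algebraMap K F η') ≠ 0 := by
    intro h1
    rw [neg_eq_zero] at h1
    rw [h1, Place.ord_zero] at h'
    exact lt_irrefl _ h'
  have hsum : (y - algebraMap K F η) + -(y - algebraMap K F η') = algebraMap K F (η' - η) := by
    rw [map_sub]; ring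
  have hne0 : (y - algebraMap K F η) + -(y - algebraMap K F η') ≠ 0 := by
    rw [hsum]
    exact (_root_.map_ne_zero (algebraMap K F)).mpr hd
  have hge := Fermat.Agent.S24.ord_add_ge P hf hg hne0
  rw [hsum, h0, Fermat.Agent.S24.ord_neg] at hge
  have := lt_min h h'
  omega

variable (x : F) [CharZero K] [FiniteDimensional K⟮x⟯ F]

/-- **Fibre count.**  `n = [F : K(x)]` distinct constants `η`, each a zero at `c` of the norm of
`y - η`, force all places over `c` to be unramified. -/
theorem ord_eq_one_of_norm_roots [IsAlgClosed K] (hx : Transcendental K x) (c : K) (y : F)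
    (q : K[X]) (hq : q.eval c ≠ 0) (s : Finset K) (hs : s.card = Module.finrank K⟮x⟯ F)
    (p : K → K[X])
    (hp : ∀ η ∈ s, y - algebraMap K F η ≠ 0 ∧ (p η).eval c = 0 ∧
      (Algebra.norm K⟮x⟯ (y - algebraMap K F η) : F) * aeval x q = aeval x (p η)) :
    ∀ P : Place K F, 0 < P.ord (x - algebraMap K F c) → P.ord (x - algebraMap K F c) = 1 := by
  classical
  set T : Finset (Place K F) := (Fermat.Agent.S18.H42.finite_over x hx c).toFinset with hT
  have hmemT : ∀ P : Place K F, P ∈ T ↔ 0 < P.ord (x - algebraMap K F c) := by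
    intro P
    simp [hT]
  have hq0 : q ≠ 0 := by
    rintro rfl
    simp at hq
  -- each `η` gives a place of the fibre
  have hex : ∀ η ∈ s, ∃ P ∈ T, 0 < P.ord (y - algebraMap K F η) := by
    intro η hη
    obtain ⟨hne, hroot, hnorm⟩ := hp η hη
    have hN : Algebra.norm K⟮x⟯ (y - algebraMap K F η) ≠ 0 := Algebra.norm_ne_zero_iff.mpr hne
    have hqx : aeval x q ≠ 0 := fun h0 => hq0 ((transcendental_iff.mp hx) q h0)
    have hpη : p η ≠ 0 := by
      intro h0
      rw [h0, map_zero] at hnorm
      rcases mul_eq_zero.mp hnorm with h1 | h1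
      · exact hN (by exact_mod_cast h1)
      · exact hqx h1
    have h := Fermat.Agent.S18.H53.norm_order_toFinset x hx hne (p η) q hq0 hnorm c
    rw [← hT] at h
    have h1 : 0 < (p η).rootMultiplicity c :=
      (Polynomial.rootMultiplicity_pos hpη).mpr hroot
    have h2 : q.rootMultiplicity c = 0 := Polynomial.rootMultiplicity_eq_zero hq
    rw [h2] at h
    by_contra hcon
    push Not at hcon
    have hle : ∑ P ∈ T, P.ord (y - algebraMap K F η) ≤ 0 :=
      Finset.sum_nonpos fun P hP => hcon P hP
    have : (0 : ℤ) < ((p η).rootMultiplicity c : ℤ) := by exact_mod_cast h1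
    omega
  have hcard : s.card ≤ T.card := by
    rw [← Finset.card_attach]
    refine Finset.card_le_card_of_injOn (fun η => (hex η.1 η.2).choose)
      (fun η _ => (hex η.1 η.2).choose_spec.1) ?_
    intro η _ η' _ hgg
    have h1 := (hex η.1 η.2).choose_spec.2
    have h2 := (hex η'.1 η'.2).choose_spec.2
    simp only at hgg
    rw [← hgg] at h2
    exact Subtype.ext (eq_of_ord_sub_pos _ h1 h2)
  have hsum := Fermat.Agent.S18.H42.sum_ord_over_toFinset x hx c
  rw [← hT] at hsum
  -- every term is `≥ 1`, the sum is `n ≤ #T`: every term is `1`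
  have hge : ∀ P ∈ T, (1 : ℤ) ≤ P.ord (x - algebraMap K F c) := fun P hP => (hmemT P).mp hP
  intro P hP
  have hPT : P ∈ T := (hmemT P).mpr hP
  by_contra hne1
  have hgt : (2 : ℤ) ≤ P.ord (x - algebraMap K F c) := by
    have := hge P hPT
    omega
  have h1 : ∑ Q ∈ T, Q.ord (x - algebraMap K F c)
      = ∑ Q ∈ T.erase P, Q.ord (x - algebraMap K F c) + P.ord (x - algebraMap K F c) :=
    (Finset.sum_erase_add _ _ hPT).symm
  have h2 : ((T.erase P).card : ℤ) ≤ ∑ Q ∈ T.erase P, Q.ord (x - algebraMap K F c) := by
    have := Finset.card_nsmul_le_sum (T.erase P) (fun Q => Q.ord (x - algebraMap K F c)) 1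
      (fun Q hQ => hge Q (Finset.mem_of_mem_erase hQ))
    simpa using this
  have h3 : (T.erase P).card = T.card - 1 := Finset.card_erase_of_mem hPT
  have h4 : 0 < T.card := Finset.card_pos.mpr ⟨P, hPT⟩
  have h5 : ((T.erase P).card : ℤ) = (T.card : ℤ) - 1 := by
    rw [h3]
    omega
  have h6 : (s.card : ℤ) ≤ (T.card : ℤ) := by exact_mod_cast hcard
  have h7 : (s.card : ℤ) = (Module.finrank K⟮x⟯ F : ℤ) := by exact_mod_cast hs
  omega

end

end Fermat.Agent.S29.H9
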